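/-
GATE-J / J1-FRONT (helper40): the formal front-end of S18, straight from the frozen definitions,
in hypothesis form.

Setting (as in the prelude section `ModularCurve.Spec`): `L` a field of characteristic zero with a
valuation subring `A`, a ring hom `π : A →+* k` onto a field, a level `N`,
`FL := laurentBaseChange L (modularFunctionFieldFull N)` and `Fk := modularFunctionFieldFullC k N`.

* `IntRing A π N`     : the subring of `LaurentSeries A` of series lying in `FL` whose reduction lies in `Fk`.
* `exists_lift`       : (F1) every element of `Fk` is a quotient of reductions of elements of `IntRing`.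
* `mapDomain_eq_ord`  : (F2) `r_*(div y) = div (red y)` for integral `y`.
* `eq_zero_of_core`   : (F3) the reduction of S18 to a CORE statement about a divisor `D'` with `r_* D' = 0`
                         and `m • D' = div (Y1 / Y2)`, `red Y1 = red Y2 ≠ 0`.
* `s18_of_core`       : (F4) the same with the frozen binders of S18.
-/
import Mathlib
import Fermat.Prelude.Def_ModularCurve_ReductionModL

set_option autoImplicit false

noncomputable section

open HahnSeries IntermediateField AlgebraicCurve ModularCurve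

namespace Fermat.Agent.GJ.S18.Front

section Setup

variable {L : Type*} [Field L] [Algebra ℚ L] (A : ValuationSubring L)
variable {k : Type*} [Field k] (π : A →+* k) (N : ℕ)

/-- The ring of "integral elements": series over `A` lying in the function field over `L` whose
coefficientwise reduction lies in the function field over `k`. -/
def IntRing : Subring (LaurentSeries A) :=
  ((laurentBaseChange L (modularFunctionFieldFull N)).toSubfield.toSubring.comap
      (coeffMap A.subtype)) ⊓
    ((modularFunctionFieldFullC k N).toSubfield.toSubring.comap (coeffMap π))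

variable {A π N}

theorem mem_intRing {y : LaurentSeries A} :
    y ∈ IntRing A π N ↔
      coeffMap A.subtype y ∈ laurentBaseChange L (modularFunctionFieldFull N) ∧
        coeffMap π y ∈ modularFunctionFieldFullC k N :=
  Iff.rfl

omit [Algebra ℚ L] in
theorem coeffMap_subtype_injective :
    Function.Injective (coeffMap (A.subtype) : LaurentSeries A → LaurentSeries L) := by
  intro x y h
  ext n
  have := congrArg (fun z : LaurentSeries L => z.coeff n) h
  simpa using this

/-- constants of `A` are integral. -/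
theorem single_mem_intRing (a : A) : HahnSeries.single (0 : ℤ) a ∈ IntRing A π N := by
  refine mem_intRing.mpr ⟨?_, ?_⟩
  · rw [coeffMap_single, ← algebraMap_laurentSeries_eq_single]
    exact (laurentBaseChange L (modularFunctionFieldFull N)).algebraMap_mem _
  · rw [coeffMap_single, ← algebraMap_laurentSeries_eq_single]
    exact (modularFunctionFieldFullC k N).algebraMap_mem _

/-- the generators `j(q^d)`, `d ∣ N`, are integral. -/
theorem gen_mem_intRing {d : ℕ} [NeZero d] (hd : d ∣ N) :
    qExpand A d (jqModC A) ∈ IntRing A π N := by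
  refine mem_intRing.mpr ⟨?_, ?_⟩
  · rw [coeffMap_qExpand, coeffMap_jqModC]
    have h1 : qExpand L d (jqModC L) = coeffEmb L (qExpand ℚ d jq) := by
      rw [coeffEmb, coeffMap_qExpand, ← jqModC_rat, coeffMap_jqModC]
    rw [h1]
    exact coeffEmb_mem_laurentBaseChange L (jqd_mem_full N hd)
  · rw [coeffMap_qExpand, coeffMap_jqModC]
    exact jqModCd_mem_full k N hd

/-- (F1) every element of the function field over `k` is a quotient of reductions of integral
elements. -/
theorem exists_lift (hπ : Function.Surjective π) {g : LaurentSeries k}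
    (hg : g ∈ modularFunctionFieldFullC k N) :
    ∃ y1 ∈ IntRing A π N, ∃ y2 ∈ IntRing A π N,
      coeffMap π y2 ≠ 0 ∧ coeffMap π y1 = g * coeffMap π y2 := by
  unfold modularFunctionFieldFullC at hg
  induction hg using IntermediateField.adjoin_induction with
  | mem x hx =>
    obtain ⟨d, hne, hd, rfl⟩ := hx
    refine ⟨qExpand A d (jqModC A), gen_mem_intRing hd, 1, one_mem _, ?_, ?_⟩
    · rw [map_one]; exact one_ne_zero
    · rw [map_one, mul_one, coeffMap_qExpand, coeffMap_jqModC]
  | algebraMap c =>
    obtain ⟨a, rfl⟩ := hπ c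
    refine ⟨HahnSeries.single (0 : ℤ) a, single_mem_intRing a, 1, one_mem _, ?_, ?_⟩
    · rw [map_one]; exact one_ne_zero
    · rw [map_one, mul_one, coeffMap_single, algebraMap_laurentSeries_eq_single]
  | add x y hx hy ihx ihy =>
    obtain ⟨a1, ha1, a2, ha2, hne, he⟩ := ihx
    obtain ⟨b1, hb1, b2, hb2, hne', he'⟩ := ihy
    refine ⟨a1 * b2 + b1 * a2, add_mem (mul_mem ha1 hb2) (mul_mem hb1 ha2), a2 * b2,
      mul_mem ha2 hb2, ?_, ?_⟩
    · rw [map_mul]; exact mul_ne_zero hne hne'
    · rw [map_add, map_mul, map_mul, map_mul, he, he']; ring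
  | inv x hx ih =>
    obtain ⟨a1, ha1, a2, ha2, hne, he⟩ := ih
    by_cases hx0 : x = 0
    · subst hx0
      refine ⟨0, zero_mem _, 1, one_mem _, ?_, ?_⟩
      · rw [map_one]; exact one_ne_zero
      · rw [map_zero, inv_zero, zero_mul]
    · have hne1 : coeffMap π a1 ≠ 0 := by rw [he]; exact mul_ne_zero hx0 hne
      refine ⟨a2, ha2, a1, ha1, hne1, ?_⟩
      rw [he, ← mul_assoc, inv_mul_cancel₀ hx0, one_mul]
  | mul x y hx hy ihx ihy =>
    obtain ⟨a1, ha1, a2, ha2, hne, he⟩ := ihx
    obtain ⟨b1, hb1, b2, hb2, hne', he'⟩ := ihy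
    refine ⟨a1 * b1, mul_mem ha1 hb1, a2 * b2, mul_mem ha2 hb2, ?_, ?_⟩
    · rw [map_mul]; exact mul_ne_zero hne hne'
    · rw [map_mul, map_mul, he, he']; ring

end Setup

section Ord

variable {K F : Type*} [Field K] [Field F] [Algebra K F]

/-- nonzero constants have order zero at every place. -/
theorem ord_algebraMap_eq_zero (v : Place K F) {c : K} (hc : c ≠ 0) :
    v.ord (algebraMap K F c) = 0 := by
  have h1 := v.algebraMap_mem' c
  have h2 := v.algebraMap_mem' c⁻¹
  let u : v.toValuationSubringˣ :=
    ⟨⟨_, h1⟩, ⟨_, h2⟩, Subtype.ext (by simp [hc]), Subtype.ext (by simp [hc])⟩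
  exact v.ord_coe_unit u

theorem ord_div (v : Place K F) {f g : F} (hf : f ≠ 0) (hg : g ≠ 0) :
    v.ord (f / g) = v.ord f - v.ord g := by
  rw [div_eq_mul_inv, v.ord_mul hf (inv_ne_zero hg), v.ord_inv, sub_eq_add_neg]

end Ord

section Main

variable {L : Type*} [Field L] [Algebra ℚ L] {A : ValuationSubring L}
variable {k : Type*} [Field k] {π : A →+* k} {N : ℕ}

/-- an integral element, as an element of the function field over `L`. -/
def elL (y : LaurentSeries A) (hy : y ∈ IntRing A π N) :
    laurentBaseChange L (modularFunctionFieldFull N) :=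
  ⟨coeffMap A.subtype y, (mem_intRing.mp hy).1⟩

/-- the reduction of an integral element, as an element of the function field over `k`. -/
def elk (y : LaurentSeries A) (hy : y ∈ IntRing A π N) : modularFunctionFieldFullC k N :=
  ⟨coeffMap π y, (mem_intRing.mp hy).2⟩

theorem elL_mul {y y' : LaurentSeries A} (hy : y ∈ IntRing A π N) (hy' : y' ∈ IntRing A π N) :
    elL (y * y') (mul_mem hy hy') = elL y hy * elL y' hy' :=
  Subtype.ext (map_mul _ _ _)

theorem elk_mul {y y' : LaurentSeries A} (hy : y ∈ IntRing A π N) (hy' : y' ∈ IntRing A π N) :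
    elk (y * y') (mul_mem hy hy') = elk y hy * elk y' hy' :=
  Subtype.ext (map_mul _ _ _)

theorem elL_one : elL (1 : LaurentSeries A) (one_mem (IntRing A π N)) = 1 :=
  Subtype.ext (map_one _)

theorem elk_ne_zero {y : LaurentSeries A} (hy : y ∈ IntRing A π N) (hne : coeffMap π y ≠ 0) :
    elk y hy ≠ 0 := fun h => hne (congrArg Subtype.val h)

theorem elL_ne_zero {y : LaurentSeries A} (hy : y ∈ IntRing A π N) (hne : coeffMap π y ≠ 0) :
    elL y hy ≠ 0 := by
  intro h
  have h0 : coeffMap A.subtype y = 0 := congrArg Subtype.val h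
  have hy0 : y = 0 := coeffMap_subtype_injective (by rw [h0, map_zero])
  exact hne (by rw [hy0, map_zero])

theorem elL_single (a : A) :
    elL (HahnSeries.single (0 : ℤ) a) (single_mem_intRing (π := π) (N := N) a) =
      algebraMap L (laurentBaseChange L (modularFunctionFieldFull N)) (a : L) := by
  apply Subtype.ext
  show coeffMap A.subtype (HahnSeries.single (0 : ℤ) a) = algebraMap L (LaurentSeries L) (a : L)
  rw [coeffMap_single, algebraMap_laurentSeries_eq_single]
  rfl

variable {r : Place L (laurentBaseChange L (modularFunctionFieldFull N)) →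
  Place k (modularFunctionFieldFullC k N)}

/-- (F2) `r_* (div y) = div (red y)` for integral `y`. -/
theorem mapDomain_eq_ord (hr : IsPlaceReductionAlong A π N r) {y : LaurentSeries A}
    (hy : y ∈ IntRing A π N) (hne : coeffMap π y ≠ 0)
    (D : Divisor L (laurentBaseChange L (modularFunctionFieldFull N)))
    (hD : ∀ P, D P = P.ord (elL y hy)) (Q : Place k (modularFunctionFieldFullC k N)) :
    Finsupp.mapDomain r D Q = Q.ord (elk y hy) :=
  hr.2 y (mem_intRing.mp hy).1 (mem_intRing.mp hy).2 hne D hD Q

/-- A divisor which is the difference of the divisors of two integral elements with nonzero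
reductions. -/
def IsIntQuot (E : Divisor L (laurentBaseChange L (modularFunctionFieldFull N))) : Prop :=
  ∃ (Y1 : LaurentSeries A) (h1 : Y1 ∈ IntRing A π N) (Y2 : LaurentSeries A)
    (h2 : Y2 ∈ IntRing A π N), coeffMap π Y1 ≠ 0 ∧ coeffMap π Y2 ≠ 0 ∧
      ∀ P, E P = P.ord (elL Y1 h1) - P.ord (elL Y2 h2)

theorem isIntQuot_of_mem_closure
    {E : Divisor L (laurentBaseChange L (modularFunctionFieldFull N))}
    (hE : E ∈ AddSubgroup.closure (integralPrincipalDivisors A π N)) :
    IsIntQuot (A := A) (π := π) E := by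
  induction hE using AddSubgroup.closure_induction with
  | mem E hE =>
    obtain ⟨y, hy, hyk, hne, hD⟩ := hE
    refine ⟨y, mem_intRing.mpr ⟨hy, hyk⟩, 1, one_mem _, hne, ?_, fun P => ?_⟩
    · rw [map_one]; exact one_ne_zero
    · rw [elL_one, Place.ord_one, sub_zero]; exact hD P
  | zero =>
    refine ⟨1, one_mem _, 1, one_mem _, ?_, ?_, fun P => ?_⟩
    · rw [map_one]; exact one_ne_zero
    · rw [map_one]; exact one_ne_zero
    · simp
  | add E E' _ _ hE hE' =>
    obtain ⟨a1, ha1, a2, ha2, hna1, hna2, hEa⟩ := hE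
    obtain ⟨b1, hb1, b2, hb2, hnb1, hnb2, hEb⟩ := hE'
    refine ⟨a1 * b1, mul_mem ha1 hb1, a2 * b2, mul_mem ha2 hb2, ?_, ?_, fun P => ?_⟩
    · rw [map_mul]; exact mul_ne_zero hna1 hnb1
    · rw [map_mul]; exact mul_ne_zero hna2 hnb2
    · rw [Finsupp.add_apply, hEa P, hEb P, elL_mul ha1 hb1, elL_mul ha2 hb2,
        P.ord_mul (elL_ne_zero ha1 hna1) (elL_ne_zero hb1 hnb1),
        P.ord_mul (elL_ne_zero ha2 hna2) (elL_ne_zero hb2 hnb2)]
      ring
  | neg E _ hE =>
    obtain ⟨a1, ha1, a2, ha2, hna1, hna2, hEa⟩ := hE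
    refine ⟨a2, ha2, a1, ha1, hna2, hna1, fun P => ?_⟩
    rw [Finsupp.neg_apply, hEa P]; ring

/-- (F3) **Front-end of S18.**  If the CORE statement holds (a degree-zero divisor `D'` with
`r_* D' = 0` whose `m`-th multiple is the divisor of a quotient `Y1 / Y2` of integral elements with
equal nonzero reductions is principal), then reduction is injective on `m`-torsion. -/
theorem eq_zero_of_core (hr : IsPlaceReductionAlong A π N r)
    (hgen : PrincipalGeneratedByIntegral A π N) (hπ : Function.Surjective π)
    (hPD : HasPrincipalDivisors L (laurentBaseChange L (modularFunctionFieldFull N)))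
    (hconstk : ∀ g : modularFunctionFieldFullC k N, g ≠ 0 →
      (∀ Q : Place k (modularFunctionFieldFullC k N), Q.ord g = 0) →
        ∃ c : k, g = algebraMap k (modularFunctionFieldFullC k N) c)
    (m : ℕ)
    (CORE : ∀ (D' : Divisor L (laurentBaseChange L (modularFunctionFieldFull N)))
      (Y1 Y2 : LaurentSeries A) (h1 : Y1 ∈ IntRing A π N) (h2 : Y2 ∈ IntRing A π N),
      coeffMap π Y1 = coeffMap π Y2 → coeffMap π Y1 ≠ 0 → Divisor.degree D' = 0 →
      (∀ P, (m • D') P = P.ord (elL Y1 h1 / elL Y2 h2)) → Finsupp.mapDomain r D' = 0 →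
        D' ∈ Divisor.principal (K := L) (F := laurentBaseChange L (modularFunctionFieldFull N)))
    (z : Pic0 L (laurentBaseChange L (modularFunctionFieldFull N))) (hmz : m • z = 0)
    (hz : reductionPic0Along r hr hgen z = 0) : z = 0 := by
  classical
  obtain ⟨D0, rfl⟩ := Pic0.mk_surjective z
  -- `m • D0` is principal
  have h1 : ((m • D0 : Divisor.degZero (K := L)
      (F := laurentBaseChange L (modularFunctionFieldFull N))) :
      Divisor L (laurentBaseChange L (modularFunctionFieldFull N))) ∈
        Divisor.principal (K := L) (F := laurentBaseChange L (modularFunctionFieldFull N)) := by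
    have h : Pic0.mk (m • D0) = 0 := by
      rw [← hmz]; rfl
    exact AddSubgroup.mem_addSubgroupOf.mp ((QuotientAddGroup.eq_zero_iff (m • D0)).mp h)
  rw [AddSubgroupClass.coe_nsmul] at h1
  -- `r_* D0` is principal
  rw [reductionPic0Along_mk] at hz
  have h2 := (QuotientAddGroup.eq_zero_iff _).mp hz
  rw [AddSubgroup.mem_addSubgroupOf, coe_reductionDegZeroAlong] at h2
  obtain ⟨g, hg0, hg⟩ := h2
  -- lift `g`
  obtain ⟨y1, hy1, y2, hy2, hne2, he⟩ := exists_lift (A := A) hπ g.2
  have hgs : (g : LaurentSeries k) ≠ 0 := fun h => hg0 (Subtype.ext h)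
  have hne1 : coeffMap π y1 ≠ 0 := by rw [he]; exact mul_ne_zero hgs hne2
  have hek : elk y1 hy1 = g * elk y2 hy2 := Subtype.ext he
  obtain ⟨E1, hE1, hE1deg⟩ := hPD.exists_divisor (elL y1 hy1) (elL_ne_zero hy1 hne1)
  obtain ⟨E2, hE2, hE2deg⟩ := hPD.exists_divisor (elL y2 hy2) (elL_ne_zero hy2 hne2)
  have hE1p : E1 ∈ Divisor.principal (K := L)
      (F := laurentBaseChange L (modularFunctionFieldFull N)) :=
    ⟨elL y1 hy1, elL_ne_zero hy1 hne1, hE1⟩
  have hE2p : E2 ∈ Divisor.principal (K := L)
      (F := laurentBaseChange L (modularFunctionFieldFull N)) :=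
    ⟨elL y2 hy2, elL_ne_zero hy2 hne2, hE2⟩
  set D' : Divisor L (laurentBaseChange L (modularFunctionFieldFull N)) :=
    (D0 : Divisor L (laurentBaseChange L (modularFunctionFieldFull N))) - (E1 - E2) with hD'
  have hdeg : Divisor.degree D' = 0 := by
    have hD0 : Divisor.degree (D0 : Divisor L (laurentBaseChange L (modularFunctionFieldFull N)))
        = 0 := D0.2
    rw [hD', map_sub, map_sub, hD0, hE1deg, hE2deg]; simp
  have hrD' : Finsupp.mapDomain r D' = 0 := by
    ext Q
    rw [hD', Finsupp.mapDomain_sub, Finsupp.mapDomain_sub, Finsupp.sub_apply, Finsupp.sub_apply,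
      hg Q, mapDomain_eq_ord hr hy1 hne1 E1 hE1 Q, mapDomain_eq_ord hr hy2 hne2 E2 hE2 Q, hek,
      Q.ord_mul hg0 (elk_ne_zero hy2 hne2), Finsupp.zero_apply]
    ring
  -- `m • D'` is principal, hence generated by integral principal divisors
  have hmD' : m • D' ∈ Divisor.principal (K := L)
      (F := laurentBaseChange L (modularFunctionFieldFull N)) := by
    rw [hD', smul_sub]
    exact sub_mem h1 (nsmul_mem (sub_mem hE1p hE2p) m)
  obtain ⟨Y1, hY1, Y2, hY2, hnY1, hnY2, hY⟩ :=
    isIntQuot_of_mem_closure (A := A) (π := π) (hgen hmD')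
  obtain ⟨G1, hG1, -⟩ := hPD.exists_divisor (elL Y1 hY1) (elL_ne_zero hY1 hnY1)
  obtain ⟨G2, hG2, -⟩ := hPD.exists_divisor (elL Y2 hY2) (elL_ne_zero hY2 hnY2)
  have hmDG : m • D' = G1 - G2 := by
    ext P
    rw [hY P, Finsupp.sub_apply, hG1 P, hG2 P]
  -- the reductions of `Y1`, `Y2` have the same divisor
  have hord : ∀ Q : Place k (modularFunctionFieldFullC k N),
      Q.ord (elk Y1 hY1) = Q.ord (elk Y2 hY2) := by
    intro Q
    have h0 : Finsupp.mapDomain r (m • D') = 0 := by
      rw [Finsupp.mapDomain_smul, hrD', smul_zero]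
    rw [hmDG, Finsupp.mapDomain_sub] at h0
    have h0Q := DFunLike.congr_fun h0 Q
    rw [Finsupp.sub_apply, mapDomain_eq_ord hr hY1 hnY1 G1 hG1 Q,
      mapDomain_eq_ord hr hY2 hnY2 G2 hG2 Q, Finsupp.zero_apply] at h0Q
    exact sub_eq_zero.mp h0Q
  -- hence their quotient is a constant
  obtain ⟨c, hc⟩ := hconstk (elk Y1 hY1 / elk Y2 hY2)
    (div_ne_zero (elk_ne_zero hY1 hnY1) (elk_ne_zero hY2 hnY2))
    (fun Q => by rw [ord_div Q (elk_ne_zero hY1 hnY1) (elk_ne_zero hY2 hnY2), hord Q, sub_self])
  have hc0 : c ≠ 0 := by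
    rintro rfl
    rw [map_zero] at hc
    exact div_ne_zero (elk_ne_zero hY1 hnY1) (elk_ne_zero hY2 hnY2) hc
  obtain ⟨a, rfl⟩ := hπ c
  have ha0 : (a : L) ≠ 0 := by
    intro h
    have : a = 0 := Subtype.ext h
    exact hc0 (by rw [this, map_zero])
  -- rescale `Y2`
  have hY2' : HahnSeries.single (0 : ℤ) a * Y2 ∈ IntRing A π N :=
    mul_mem (single_mem_intRing a) hY2
  have hredeq : coeffMap π Y1 = coeffMap π (HahnSeries.single (0 : ℤ) a * Y2) := by
    have h3 : elk Y1 hY1 = algebraMap k (modularFunctionFieldFullC k N) (π a) * elk Y2 hY2 := by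
      rw [← hc, div_mul_cancel₀ _ (elk_ne_zero hY2 hnY2)]
    have h4 := congrArg Subtype.val h3
    rw [map_mul, coeffMap_single, ← algebraMap_laurentSeries_eq_single]
    exact h4
  have hprin : D' ∈ Divisor.principal (K := L)
      (F := laurentBaseChange L (modularFunctionFieldFull N)) := by
    refine CORE D' Y1 (HahnSeries.single (0 : ℤ) a * Y2) hY1 hY2' hredeq hnY1 hdeg (fun P => ?_) hrD'
    have hne2' : elL (HahnSeries.single (0 : ℤ) a * Y2) hY2' ≠ 0 := by
      rw [elL_mul (single_mem_intRing a) hY2, elL_single]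
      exact mul_ne_zero ((map_ne_zero _).mpr ha0) (elL_ne_zero hY2 hnY2)
    rw [ord_div P (elL_ne_zero hY1 hnY1) hne2', hY P, elL_mul (single_mem_intRing a) hY2,
      elL_single, P.ord_mul ((map_ne_zero _).mpr ha0) (elL_ne_zero hY2 hnY2),
      ord_algebraMap_eq_zero P ha0, zero_add]
  -- conclude
  have hD0p : (D0 : Divisor L (laurentBaseChange L (modularFunctionFieldFull N))) ∈
      Divisor.principal (K := L) (F := laurentBaseChange L (modularFunctionFieldFull N)) := by
    have : (D0 : Divisor L (laurentBaseChange L (modularFunctionFieldFull N))) = D' + (E1 - E2) := by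
      rw [hD']; abel
    rw [this]
    exact add_mem hprin (sub_mem hE1p hE2p)
  exact (QuotientAddGroup.eq_zero_iff _).mpr (AddSubgroup.mem_addSubgroupOf.mpr hD0p)

end Main

section Frozen

set_option synthInstance.maxHeartbeats 400000

/-- (F4) The front-end with the binders of the frozen statement S18: `reductionModL` is injective on
`m`-torsion as soon as the CORE statement holds for every place reduction `r`. -/
theorem s18_of_core (N : ℕ) (A : ValuationSubring (AlgebraicClosure ℚ))
    (h : ModularCurve.ReductionInputsModL A N)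
    (hPD : HasPrincipalDivisors (AlgebraicClosure ℚ) (modularFunctionFieldBar N))
    (hconstk : ∀ g : modularFunctionFieldFullC (IsLocalRing.ResidueField A) N, g ≠ 0 →
      (∀ Q : Place (IsLocalRing.ResidueField A)
        (modularFunctionFieldFullC (IsLocalRing.ResidueField A) N), Q.ord g = 0) →
        ∃ c : IsLocalRing.ResidueField A,
          g = algebraMap (IsLocalRing.ResidueField A)
            (modularFunctionFieldFullC (IsLocalRing.ResidueField A) N) c)
    (m : ℕ)
    (CORE : ∀ (r : Place (AlgebraicClosure ℚ) (modularFunctionFieldBar N) →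
        Place (IsLocalRing.ResidueField A)
          (modularFunctionFieldFullC (IsLocalRing.ResidueField A) N)),
      IsPlaceReductionModL A N r →
      PrincipalGeneratedByIntegral A (IsLocalRing.residue A) N →
      ∀ (D' : Divisor (AlgebraicClosure ℚ) (modularFunctionFieldBar N))
        (Y1 Y2 : LaurentSeries A) (h1 : Y1 ∈ IntRing A (IsLocalRing.residue A) N)
        (h2 : Y2 ∈ IntRing A (IsLocalRing.residue A) N),
        coeffMap (IsLocalRing.residue A) Y1 = coeffMap (IsLocalRing.residue A) Y2 →
        coeffMap (IsLocalRing.residue A) Y1 ≠ 0 → Divisor.degree D' = 0 →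
        (∀ P, (m • D') P = P.ord (elL Y1 h1 / elL Y2 h2)) → Finsupp.mapDomain r D' = 0 →
          D' ∈ Divisor.principal (K := AlgebraicClosure ℚ) (F := modularFunctionFieldBar N))
    (z : ModularCurve.JZero N) (hmz : m • z = 0)
    (hz : ModularCurve.reductionModL A N z = 0) : z = 0 := by
  rw [reductionModL, reductionAlong_eq h] at hz
  exact eq_zero_of_core h.choose_spec.1 h.choose_spec.2 Ideal.Quotient.mk_surjective hPD hconstk m
    (CORE h.choose h.choose_spec.1 h.choose_spec.2) z hmz hz

end Frozen

end Fermat.Agent.GJ.S18.Front
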