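/-
GATE-J / J1-FRONT, part 2 (helper40): the CORE hypothesis of `Front.eq_zero_of_core` follows from the
`r`-free KUMMER statement (K18) of GRAPH v1:

  (K18)  `a b` integral, `red a = red b ≠ 0`, `m ∣ ord_P a - ord_P b` for all places `P`
          ⟹ `∃ v ≠ 0, a = b * v ^ m`   in `FL = laurentBaseChange L (modularFunctionFieldFull N)`.

So `S18 ⇐ (K18) + HasPrincipalDivisors + (constants of the char-`ℓ` field)`.
-/
import Fermat.Agent.GJ.S18.Front

set_option autoImplicit false

noncomputable section

open HahnSeries IntermediateField AlgebraicCurve ModularCurve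

namespace Fermat.Agent.GJ.S18.Front

section K18

variable {L : Type*} [Field L] [Algebra ℚ L] (A : ValuationSubring L)
variable {k : Type*} [Field k] (π : A →+* k) (N : ℕ)

/-- The Kummer statement (K18) at level `N` for the exponent `m`, in the language of `IntRing`. -/
def K18 (m : ℕ) : Prop :=
  ∀ (a b : LaurentSeries A) (ha : a ∈ IntRing A π N) (hb : b ∈ IntRing A π N),
    coeffMap π a = coeffMap π b → coeffMap π a ≠ 0 →
    (∀ P : Place L (laurentBaseChange L (modularFunctionFieldFull N)),
      (m : ℤ) ∣ P.ord (elL a ha) - P.ord (elL b hb)) →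
    ∃ v : laurentBaseChange L (modularFunctionFieldFull N), v ≠ 0 ∧ elL a ha = elL b hb * v ^ m

variable {A π N}

/-- (K18) implies the CORE hypothesis of `eq_zero_of_core` (for any `r`; `r` is not used). -/
theorem core_of_k18 {m : ℕ} (hm : m ≠ 0) (hK : K18 A π N m)
    (D' : Divisor L (laurentBaseChange L (modularFunctionFieldFull N)))
    (Y1 Y2 : LaurentSeries A) (h1 : Y1 ∈ IntRing A π N) (h2 : Y2 ∈ IntRing A π N)
    (hred : coeffMap π Y1 = coeffMap π Y2) (hne : coeffMap π Y1 ≠ 0)
    (hD : ∀ P, (m • D') P = P.ord (elL Y1 h1 / elL Y2 h2)) :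
    D' ∈ Divisor.principal (K := L) (F := laurentBaseChange L (modularFunctionFieldFull N)) := by
  have hne2 : coeffMap π Y2 ≠ 0 := hred ▸ hne
  have hY1 := elL_ne_zero h1 hne
  have hY2 := elL_ne_zero h2 hne2
  obtain ⟨v, hv0, hv⟩ := hK Y1 Y2 h1 h2 hred hne (fun P => by
    rw [← ord_div P hY1 hY2, ← hD P, Finsupp.smul_apply, nsmul_eq_mul]
    exact dvd_mul_right _ _)
  refine ⟨v, hv0, fun P => ?_⟩
  have h3 : (m • D') P = (m : ℤ) * P.ord v := by
    rw [hD P, hv, mul_div_cancel_left₀ _ hY2, ← zpow_natCast, P.ord_zpow]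
  rw [Finsupp.smul_apply, nsmul_eq_mul] at h3
  exact mul_left_cancel₀ (by exact_mod_cast hm) h3

/-- **S18 from (K18)** in the generic setting. -/
theorem eq_zero_of_k18
    {r : Place L (laurentBaseChange L (modularFunctionFieldFull N)) →
      Place k (modularFunctionFieldFullC k N)}
    (hr : IsPlaceReductionAlong A π N r)
    (hgen : PrincipalGeneratedByIntegral A π N) (hπ : Function.Surjective π)
    (hPD : HasPrincipalDivisors L (laurentBaseChange L (modularFunctionFieldFull N)))
    (hconstk : ∀ g : modularFunctionFieldFullC k N, g ≠ 0 →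
      (∀ Q : Place k (modularFunctionFieldFullC k N), Q.ord g = 0) →
        ∃ c : k, g = algebraMap k (modularFunctionFieldFullC k N) c)
    {m : ℕ} (hm : m ≠ 0) (hK : K18 A π N m)
    (z : Pic0 L (laurentBaseChange L (modularFunctionFieldFull N))) (hmz : m • z = 0)
    (hz : reductionPic0Along r hr hgen z = 0) : z = 0 :=
  eq_zero_of_core hr hgen hπ hPD hconstk m
    (fun D' Y1 Y2 h1 h2 hred hne _ hD _ => core_of_k18 hm hK D' Y1 Y2 h1 h2 hred hne hD) z hmz hz

end K18

section Frozen

set_option synthInstance.maxHeartbeats 400000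

/-- **S18 from (K18)** with the binders of the frozen statement. -/
theorem s18_of_k18 (N : ℕ) (A : ValuationSubring (AlgebraicClosure ℚ))
    (h : ModularCurve.ReductionInputsModL A N)
    (hPD : HasPrincipalDivisors (AlgebraicClosure ℚ) (modularFunctionFieldBar N))
    (hconstk : ∀ g : modularFunctionFieldFullC (IsLocalRing.ResidueField A) N, g ≠ 0 →
      (∀ Q : Place (IsLocalRing.ResidueField A)
        (modularFunctionFieldFullC (IsLocalRing.ResidueField A) N), Q.ord g = 0) →
        ∃ c : IsLocalRing.ResidueField A,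
          g = algebraMap (IsLocalRing.ResidueField A)
            (modularFunctionFieldFullC (IsLocalRing.ResidueField A) N) c)
    {m : ℕ} (hm : m ≠ 0) (hK : K18 A (IsLocalRing.residue A) N m)
    (z : ModularCurve.JZero N) (hmz : m • z = 0)
    (hz : ModularCurve.reductionModL A N z = 0) : z = 0 :=
  s18_of_core N A h hPD hconstk m
    (fun _ _ _ D' Y1 Y2 h1 h2 hred hne _ hD _ => core_of_k18 hm hK D' Y1 Y2 h1 h2 hred hne hD)
    z hmz hz

end Frozen

end Fermat.Agent.GJ.S18.Front
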