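/-
GATE-J / J1 (helper45): the CLAUSE-FREE form `K18s` of the Kummer statement (K18).

`Front.K18` asks `a b ∈ IntRing A π N`, i.e. ALSO that the reductions of `a` and `b` lie in
`modularFunctionFieldFullC k N`.  The J1 proof (valued function field `(F, w)`, residue field of
`w`) never uses that clause, and J3 cannot supply it without the extra modular input
"the residue field of `w` is generated by the `j(q^d)`" (irreducibility of `Φ_N` mod `ℓ`).
So J1 should export `K18s` below; `K18` follows trivially (`k18_of_k18s`), and J3 may consume `K18s`
directly for arbitrary integral `a b` lying in the function field over `L`.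
-/
import Fermat.Agent.GJ.S18.FrontK18

set_option autoImplicit false

noncomputable section

open HahnSeries IntermediateField AlgebraicCurve ModularCurve

namespace Fermat.Agent.GJ.S18.Front

section K18s

variable {L : Type*} [Field L] [Algebra ℚ L] (A : ValuationSubring L)
variable {k : Type*} [Field k] (π : A →+* k) (N : ℕ)

/-- The Kummer statement (K18) WITHOUT the clause "the reductions lie in the function field over
`k`": `a b` are series over `A` whose images over `L` lie in the function field, with the same
nonzero coefficientwise reduction, and all orders of `a / b` are divisible by `m`. -/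
def K18s (m : ℕ) : Prop :=
  ∀ (a b : LaurentSeries A)
    (ha : coeffMap A.subtype a ∈ laurentBaseChange L (modularFunctionFieldFull N))
    (hb : coeffMap A.subtype b ∈ laurentBaseChange L (modularFunctionFieldFull N)),
    coeffMap π a = coeffMap π b → coeffMap π a ≠ 0 →
    (∀ P : Place L (laurentBaseChange L (modularFunctionFieldFull N)),
      (m : ℤ) ∣ P.ord (⟨coeffMap A.subtype a, ha⟩ :
          laurentBaseChange L (modularFunctionFieldFull N)) -
        P.ord (⟨coeffMap A.subtype b, hb⟩ :
          laurentBaseChange L (modularFunctionFieldFull N))) →
    ∃ v : laurentBaseChange L (modularFunctionFieldFull N), v ≠ 0 ∧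
      (⟨coeffMap A.subtype a, ha⟩ : laurentBaseChange L (modularFunctionFieldFull N)) =
        ⟨coeffMap A.subtype b, hb⟩ * v ^ m

variable {A π N}

/-- the clause-free form implies the `IntRing` form. -/
theorem k18_of_k18s {m : ℕ} (h : K18s A π N m) : K18 A π N m := by
  intro a b ha hb hred hne hdiv
  exact h a b (mem_intRing.mp ha).1 (mem_intRing.mp hb).1 hred hne hdiv

end K18s

end Fermat.Agent.GJ.S18.Front
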