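/-
GATE-J / J1 (helper40): **S18 from the Kummer statements (K18) at the auxiliary levels**, with the
binders of the frozen statement.  Everything except (K18) is discharged here:

* `HasPrincipalDivisors ℚ̄ (F_N)`        : `GJ/J1/FibreFinal.lean` (helper18, from T24),
* constants on the special fibre        : `GJ/J1/FibreFinal.lean` + `GJ/J1/ResidueAlgClosed.lean`,
* descent `lcm(M, N) → N`               : `GJ/J1/Desc.lean` + `GJ/J1/DescDegree.lean`.

`s18_of_forall_k18` : if (K18) holds at every level `N'` prime to `ℓ` (with `3 ∣ N'` when `ℓ = 2`,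
`2 ∣ N'` when `ℓ = 3`) for every exponent `m` prime to `ℓ`, then the statement S18 holds at every
level `N` prime to `ℓ`.
-/
import Fermat.Agent.GJ.S18.FrontK18
import Fermat.Agent.GJ.J1.DescDegree
import Fermat.Agent.GJ.J1.FibreFinal
import Fermat.Agent.GJ.J1.ResidueAlgClosed

set_option autoImplicit false

noncomputable section

open HahnSeries IntermediateField AlgebraicCurve ModularCurve

namespace Fermat.Agent.GJ.S18.Front

open Fermat.Agent.GJ.J1.Desc

/-- S18 at level `N` from (K18) at level `N` itself. -/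
theorem s18_of_k18_self (N : ℕ) [NeZero N] (A : ValuationSubring (AlgebraicClosure ℚ))
    (h : ModularCurve.ReductionInputsModL A N) {m : ℕ} (hm : m ≠ 0)
    (hK : K18 A (IsLocalRing.residue A) N m)
    (z : ModularCurve.JZero N) (hmz : m • z = 0)
    (hz : ModularCurve.reductionModL A N z = 0) : z = 0 :=
  s18_of_k18 N A h Fermat.Agent.GJ.FibreCurve.instHasPrincipalDivisorsBar
    (fun _ hg hQ => Fermat.Agent.GJ.FibreCurve.exists_const_fibre h hg hQ) hm hK z hmz hz

/-- **S18 from (K18) at the auxiliary levels.** -/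
theorem s18_of_forall_k18 (N : ℕ) [NeZero N] {ℓ : ℕ} [Fact ℓ.Prime] (hℓN : ¬ ℓ ∣ N)
    (A : ValuationSubring (AlgebraicClosure ℚ))
    (h : ModularCurve.ReductionInputsModL A N)
    (hK : ∀ (N' : ℕ) [NeZero N'], ¬ ℓ ∣ N' → (ℓ = 2 → 3 ∣ N') → (ℓ = 3 → 2 ∣ N') →
      ∀ m : ℕ, ¬ ℓ ∣ m → K18 A (IsLocalRing.residue A) N' m)
    (m : ℕ) (hm : ¬ ℓ ∣ m) (z : ModularCurve.JZero N)
    (hmz : m • z = 0) (hz : ModularCurve.reductionModL A N z = 0) : z = 0 := by
  have hℓ : ℓ.Prime := Fact.out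
  have hm0 : m ≠ 0 := fun h0 => hm (h0 ▸ dvd_zero ℓ)
  refine s18_of_k18_self N A h hm0 ?_ z hmz hz
  by_cases h2 : ℓ = 2
  · -- auxiliary level `lcm(3, N)`
    subst h2
    have hN' : ¬ 2 ∣ Nat.lcm 3 N := fun hd =>
      (Nat.Prime.dvd_mul Nat.prime_two).mp (hd.trans (Nat.lcm_dvd_mul 3 N)) |>.elim
        (by decide) hℓN
    exact k18_of_dvd (Nat.dvd_lcm_right 3 N) (coprime_relfinrank_lcm_three N hm)
      (hK (Nat.lcm 3 N) hN' (fun _ => Nat.dvd_lcm_left 3 N) (fun h32 => absurd h32 (by decide))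
        m hm)
  by_cases h3 : ℓ = 3
  · -- auxiliary level `lcm(2, N)`
    subst h3
    have hN' : ¬ 3 ∣ Nat.lcm 2 N := fun hd =>
      (Nat.Prime.dvd_mul Nat.prime_three).mp (hd.trans (Nat.lcm_dvd_mul 2 N)) |>.elim
        (by decide) hℓN
    exact k18_of_dvd (Nat.dvd_lcm_right 2 N) (coprime_relfinrank_lcm_two N hm)
      (hK (Nat.lcm 2 N) hN' (fun h32 => absurd h32 (by decide)) (fun _ => Nat.dvd_lcm_left 2 N)
        m hm)
  · exact hK N hℓN (fun h => absurd h h2) (fun h => absurd h h3) m hm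

end Fermat.Agent.GJ.S18.Front
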