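/-
GATE-J / J1 (helper40): the frozen statement S18 from `K18s` at the auxiliary levels, and from the
bare existence of SECTIONS (`L(D) ≠ 0` for `m • D = div (a / b)`) at the auxiliary levels.
-/
import Fermat.Agent.GJ.S18.OfK18
import Fermat.Agent.GJ.J1.KummerFinish

set_option autoImplicit false

noncomputable section

open HahnSeries IntermediateField AlgebraicCurve ModularCurve

namespace Fermat.Agent.GJ.S18.Front

open Fermat.Agent.S24

/-- **S18 from (K18s) at the auxiliary levels.** -/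
theorem s18_of_forall_k18s (N : ℕ) [NeZero N] {ℓ : ℕ} [Fact ℓ.Prime] (hℓN : ¬ ℓ ∣ N)
    (A : ValuationSubring (AlgebraicClosure ℚ))
    (h : ModularCurve.ReductionInputsModL A N)
    (hK : ∀ (N' : ℕ) [NeZero N'], ¬ ℓ ∣ N' → (ℓ = 2 → 3 ∣ N') → (ℓ = 3 → 2 ∣ N') →
      ∀ m : ℕ, ¬ ℓ ∣ m → K18s A (IsLocalRing.residue A) N' m)
    (m : ℕ) (hm : ¬ ℓ ∣ m) (z : ModularCurve.JZero N)
    (hmz : m • z = 0) (hz : ModularCurve.reductionModL A N z = 0) : z = 0 :=
  s18_of_forall_k18 N hℓN A h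
    (fun N' _ h1 h2 h3 m hm => k18_of_k18s (hK N' h1 h2 h3 m hm)) m hm z hmz hz

/-- **S18 from the existence of sections at the auxiliary levels**: for every level `N'` prime to
`ℓ` (with `3 ∣ N'` if `ℓ = 2`, `2 ∣ N'` if `ℓ = 3`), every `m` prime to `ℓ` and all `a b ∈ A((q))`
lying in `F_{N'}` with the same nonzero reduction and `m ∣ ord_P a - ord_P b` everywhere, there is
`x ≠ 0` in `F_{N'}` with `0 ≤ m * ord_P x + (ord_P a - ord_P b)` at all places `P`. -/
theorem s18_of_sections (N : ℕ) [NeZero N] {ℓ : ℕ} [Fact ℓ.Prime] (hℓN : ¬ ℓ ∣ N)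
    (A : ValuationSubring (AlgebraicClosure ℚ))
    (h : ModularCurve.ReductionInputsModL A N)
    (hsec : ∀ (N' : ℕ) [NeZero N'], ¬ ℓ ∣ N' → (ℓ = 2 → 3 ∣ N') → (ℓ = 3 → 2 ∣ N') →
      ∀ m : ℕ, ¬ ℓ ∣ m → ∀ (a b : LaurentSeries A)
      (ha : coeffMap A.subtype a ∈ modularFunctionFieldBar N')
      (hb : coeffMap A.subtype b ∈ modularFunctionFieldBar N'),
      coeffMap (IsLocalRing.residue A) a = coeffMap (IsLocalRing.residue A) b →
      coeffMap (IsLocalRing.residue A) a ≠ 0 →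
      (∀ P : Place Kbar (modularFunctionFieldBar N'),
        (m : ℤ) ∣ P.ord (⟨coeffMap A.subtype a, ha⟩ : modularFunctionFieldBar N') -
          P.ord (⟨coeffMap A.subtype b, hb⟩ : modularFunctionFieldBar N')) →
      ∃ x : modularFunctionFieldBar N', x ≠ 0 ∧
        ∀ P : Place Kbar (modularFunctionFieldBar N'),
          0 ≤ (m : ℤ) * P.ord x +
            (P.ord (⟨coeffMap A.subtype a, ha⟩ : modularFunctionFieldBar N') -
              P.ord (⟨coeffMap A.subtype b, hb⟩ : modularFunctionFieldBar N')))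
    (m : ℕ) (hm : ¬ ℓ ∣ m) (z : ModularCurve.JZero N)
    (hmz : m • z = 0) (hz : ModularCurve.reductionModL A N z = 0) : z = 0 :=
  s18_of_forall_k18s N hℓN A h
    (fun N' _ h1 h2 h3 m hm =>
      Fermat.Agent.GJ.J1.KummerFinish.k18s_of_section
        (fun h0 : m = 0 => hm (h0 ▸ dvd_zero ℓ)) (hsec N' h1 h2 h3 m hm))
    m hm z hmz hz

end Fermat.Agent.GJ.S18.Front
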