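/-
GATE-J (helper45): `K18 + RedMem ⟹ K18s` (asked in board 1426), so that BOTH possible outcomes of
J1 (the clause-free `K18s` directly, or helper40's `K18` together with helper87's RES = `RedMem`)
feed the clause-free junction consumed by ES.
-/
import Fermat.Agent.GJ.S18.K18Strong
import Fermat.Agent.GJ.Kum.ESKummer

set_option autoImplicit false

noncomputable section

open HahnSeries IntermediateField AlgebraicCurve ModularCurve

namespace Fermat.Agent.GJ.S18.Front

/-- `K18` together with `RedMem` (the reductions of `A`-integral elements of the function field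
lie in `k(j(q^d) : d ∣ N)`) gives the clause-free `K18s`. -/
theorem k18s_of_k18_of_redMem (N : ℕ) (A : ValuationSubring (AlgebraicClosure ℚ)) {m : ℕ}
    (hK : K18 A (IsLocalRing.residue A) N m) (hR : Fermat.Agent.GJ.Kum.RedMem N A) :
    K18s A (IsLocalRing.residue A) N m := by
  intro a b ha hb hred hne hdiv
  exact hK a b (mem_intRing.mpr ⟨ha, hR a ha⟩) (mem_intRing.mpr ⟨hb, hR b hb⟩) hred hne hdiv

end Fermat.Agent.GJ.S18.Front
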