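/-
GATE-J / J1 (helper18): the frozen S18 statement from (K18) ALONE.
`Front.s18_of_k18` (helper40) needs `HasPrincipalDivisors ℚ̄ F_N` and the constants of the
special-fibre field; both are discharged by J1-FIB (`GJ/J1/FibreFinal.lean`).
-/
import Fermat.Agent.GJ.S18.FrontK18
import Fermat.Agent.GJ.J1.FibreFinal
import Fermat.Agent.GJ.J1.ResidueAlgClosed

set_option autoImplicit false

noncomputable section

open AlgebraicCurve ModularCurve

namespace Fermat.Agent.GJ.S18.FromK18

set_option synthInstance.maxHeartbeats 400000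

/-- **S18 from (K18) alone**, with the binders of the frozen statement: the only remaining input is
`K18 A (residue A) N m` for the given `m`. -/
theorem s18_of_k18_only (N : ℕ) [NeZero N] (A : ValuationSubring (AlgebraicClosure ℚ))
    (h : ModularCurve.ReductionInputsModL A N) {m : ℕ} (hm : m ≠ 0)
    (hK : Front.K18 A (IsLocalRing.residue A) N m)
    (z : ModularCurve.JZero N) (hmz : m • z = 0)
    (hz : ModularCurve.reductionModL A N z = 0) : z = 0 :=
  Front.s18_of_k18 N A h FibreCurve.instHasPrincipalDivisorsBar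
    (fun _ hg h0 => FibreCurve.exists_const_fibre h hg h0) hm hK z hmz hz

/-- the frozen S18 statement, from (K18) for all exponents prime to `ℓ` -/
theorem s18_of_forall_k18 (N : ℕ) [NeZero N] {ℓ : ℕ} [Fact ℓ.Prime] (_hℓN : ¬ ℓ ∣ N)
    (A : ValuationSubring (AlgebraicClosure ℚ)) (_hA : A.LiesOverPrime ℓ)
    (hK : ∀ m : ℕ, ¬ ℓ ∣ m → Front.K18 A (IsLocalRing.residue A) N m)
    (h : ModularCurve.ReductionInputsModL A N) (m : ℕ) (hm : ¬ ℓ ∣ m) (z : ModularCurve.JZero N)
    (hmz : m • z = 0) (hz : ModularCurve.reductionModL A N z = 0) : z = 0 :=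
  s18_of_k18_only N A h (fun h0 : m = 0 => hm (by rw [h0]; exact dvd_zero ℓ)) (hK m hm) z hmz hz

end Fermat.Agent.GJ.S18.FromK18
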